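import Fermat.Agent.S25.H325.GDCIso

/-!
# Row S27, leaf TENSOR / G-ALG (helper323): tensor products of gluing data, core

Pure algebra over the frozen `Fermat.Agent.S25.DefsAlg` and the Picard calculus of
`Fermat.Agent.S25.H325` (`tensorGD`, `dualGD`, `GDHom`).  No S27 interface is imported here:
the statements are UNBUNDLED (bilinear maps on the three charts), so that they can be plugged
into any packaging of "`H` is a tensor product of `G` and `G'`".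

* `isIso_tensorGD_of_bilin_h323` : bilinear maps `β₀, β₁, β₀₁` compatible with the restriction
  maps, with `lift β₀`, `lift β₁` bijective, give `(tensorGD G G').IsIso H`;
* `bijective_lift_overlap_h323` : then `lift β₀₁` is bijective as well;
* `exists_bilin_of_isIso_h323` : conversely, `(tensorGD G G').IsIso H` gives such maps;
* `tensorGD_assoc_isIso_h323` : associativity of `tensorGD` up to `IsIso`.
-/

set_option autoImplicit false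

universe u

open TensorProduct

namespace Fermat.Agent.S27.H323

open Fermat.Agent.S25 Fermat.Agent.S25.H325

noncomputable section

variable {A R₀ R₁ R₀₁ : Type u} [CommRing A] [CommRing R₀] [CommRing R₁]
    [CommRing R₀₁] [Algebra A R₀] [Algebra A R₁] [Algebra A R₀₁] [Algebra R₀ R₀₁]
    [Algebra R₁ R₀₁] [IsScalarTower A R₀ R₀₁] [IsScalarTower A R₁ R₀₁]

variable {G G' H : GlueDatum A R₀ R₁ R₀₁}

/-- The morphism `tensorGD G G' ⟶ H` of gluing data defined by compatible bilinear maps. -/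
def homOfBilin_h323 (β₀ : G.N₀ →ₗ[R₀] G'.N₀ →ₗ[R₀] H.N₀)
    (β₁ : G.N₁ →ₗ[R₁] G'.N₁ →ₗ[R₁] H.N₁) (β₀₁ : G.N₀₁ →ₗ[R₀₁] G'.N₀₁ →ₗ[R₀₁] H.N₀₁)
    (c₀ : ∀ s s', β₀₁ (G.r₀ s) (G'.r₀ s') = H.r₀ (β₀ s s'))
    (c₁ : ∀ s s', β₀₁ (G.r₁ s) (G'.r₁ s') = H.r₁ (β₁ s s')) : GDHom (tensorGD G G') H :=
  GDHom.ofTensor (TensorProduct.lift β₀) (TensorProduct.lift β₁) (TensorProduct.lift β₀₁)
    (fun n n' => by simp only [TensorProduct.lift.tmul]; exact c₀ n n')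
    (fun n n' => by simp only [TensorProduct.lift.tmul]; exact c₁ n n')

/-- Compatible bilinear maps which induce bijections on the two charts exhibit `H` as
isomorphic to `tensorGD G G'`. -/
theorem isIso_tensorGD_of_bilin_h323 (β₀ : G.N₀ →ₗ[R₀] G'.N₀ →ₗ[R₀] H.N₀)
    (β₁ : G.N₁ →ₗ[R₁] G'.N₁ →ₗ[R₁] H.N₁) (β₀₁ : G.N₀₁ →ₗ[R₀₁] G'.N₀₁ →ₗ[R₀₁] H.N₀₁)
    (c₀ : ∀ s s', β₀₁ (G.r₀ s) (G'.r₀ s') = H.r₀ (β₀ s s'))
    (c₁ : ∀ s s', β₀₁ (G.r₁ s) (G'.r₁ s') = H.r₁ (β₁ s s'))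
    (b₀ : Function.Bijective (TensorProduct.lift β₀))
    (b₁ : Function.Bijective (TensorProduct.lift β₁)) : (tensorGD G G').IsIso H :=
  isIso_of_bijective (homOfBilin_h323 β₀ β₁ β₀₁ c₀ c₁) b₀ b₁

/-- Under the hypotheses of `isIso_tensorGD_of_bilin_h323`, the bilinear map on the overlap
induces a bijection as well. -/
theorem bijective_lift_overlap_h323 (β₀ : G.N₀ →ₗ[R₀] G'.N₀ →ₗ[R₀] H.N₀)
    (β₁ : G.N₁ →ₗ[R₁] G'.N₁ →ₗ[R₁] H.N₁) (β₀₁ : G.N₀₁ →ₗ[R₀₁] G'.N₀₁ →ₗ[R₀₁] H.N₀₁)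
    (c₀ : ∀ s s', β₀₁ (G.r₀ s) (G'.r₀ s') = H.r₀ (β₀ s s'))
    (c₁ : ∀ s s', β₀₁ (G.r₁ s) (G'.r₁ s') = H.r₁ (β₁ s s'))
    (b₀ : Function.Bijective (TensorProduct.lift β₀)) :
    Function.Bijective (TensorProduct.lift β₀₁) :=
  (homOfBilin_h323 β₀ β₁ β₀₁ c₀ c₁).bijective_f₀₁ b₀

/-- An isomorphism `tensorGD G G' ≅ H` gives compatible bilinear maps inducing bijections on
the two charts and on the overlap. -/
theorem exists_bilin_of_isIso_h323 (h : (tensorGD G G').IsIso H) :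
    ∃ (β₀ : G.N₀ →ₗ[R₀] G'.N₀ →ₗ[R₀] H.N₀) (β₁ : G.N₁ →ₗ[R₁] G'.N₁ →ₗ[R₁] H.N₁)
      (β₀₁ : G.N₀₁ →ₗ[R₀₁] G'.N₀₁ →ₗ[R₀₁] H.N₀₁),
      (∀ s s', β₀₁ (G.r₀ s) (G'.r₀ s') = H.r₀ (β₀ s s')) ∧
      (∀ s s', β₀₁ (G.r₁ s) (G'.r₁ s') = H.r₁ (β₁ s s')) ∧
      Function.Bijective (TensorProduct.lift β₀) ∧
      Function.Bijective (TensorProduct.lift β₁) ∧
      Function.Bijective (TensorProduct.lift β₀₁) := by
  obtain ⟨e⟩ := h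
  let f₀ : G.N₀ ⊗[R₀] G'.N₀ →ₗ[R₀] H.N₀ := e.e₀.toLinearMap
  let f₁ : G.N₁ ⊗[R₁] G'.N₁ →ₗ[R₁] H.N₁ := e.e₁.toLinearMap
  let f₀₁ : G.N₀₁ ⊗[R₀₁] G'.N₀₁ →ₗ[R₀₁] H.N₀₁ := e.e₀₁.toLinearMap
  have hl₀ : TensorProduct.lift ((TensorProduct.mk R₀ G.N₀ G'.N₀).compr₂ f₀) = f₀ := by
    rw [TensorProduct.lift_compr₂, TensorProduct.lift_mk, LinearMap.comp_id]
  have hl₁ : TensorProduct.lift ((TensorProduct.mk R₁ G.N₁ G'.N₁).compr₂ f₁) = f₁ := by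
    rw [TensorProduct.lift_compr₂, TensorProduct.lift_mk, LinearMap.comp_id]
  have hl₀₁ : TensorProduct.lift ((TensorProduct.mk R₀₁ G.N₀₁ G'.N₀₁).compr₂ f₀₁) = f₀₁ := by
    rw [TensorProduct.lift_compr₂, TensorProduct.lift_mk, LinearMap.comp_id]
  refine ⟨(TensorProduct.mk R₀ G.N₀ G'.N₀).compr₂ f₀,
    (TensorProduct.mk R₁ G.N₁ G'.N₁).compr₂ f₁,
    (TensorProduct.mk R₀₁ G.N₀₁ G'.N₀₁).compr₂ f₀₁, ?_, ?_, ?_, ?_, ?_⟩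
  · intro s s'
    have h := e.comm₀ (s ⊗ₜ[R₀] s')
    change e.e₀₁ (tensorRes (S := R₀₁) G.r₀ G'.r₀ (s ⊗ₜ[R₀] s')) = _ at h
    rw [tensorRes_tmul] at h
    exact h
  · intro s s'
    have h := e.comm₁ (s ⊗ₜ[R₁] s')
    change e.e₀₁ (tensorRes (S := R₀₁) G.r₁ G'.r₁ (s ⊗ₜ[R₁] s')) = _ at h
    rw [tensorRes_tmul] at h
    exact h
  · rw [hl₀]; exact e.e₀.bijective
  · rw [hl₁]; exact e.e₁.bijective
  · rw [hl₀₁]; exact e.e₀₁.bijective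

/-- Associativity of the tensor product of gluing data. -/
theorem tensorGD_assoc_isIso_h323 (G₁ G₂ G₃ : GlueDatum A R₀ R₁ R₀₁) :
    (tensorGD (tensorGD G₁ G₂) G₃).IsIso (tensorGD G₁ (tensorGD G₂ G₃)) := by
  let f₀ : (G₁.N₀ ⊗[R₀] G₂.N₀) ⊗[R₀] G₃.N₀ →ₗ[R₀] G₁.N₀ ⊗[R₀] (G₂.N₀ ⊗[R₀] G₃.N₀) :=
    (TensorProduct.assoc R₀ G₁.N₀ G₂.N₀ G₃.N₀).toLinearMap
  let f₁ : (G₁.N₁ ⊗[R₁] G₂.N₁) ⊗[R₁] G₃.N₁ →ₗ[R₁] G₁.N₁ ⊗[R₁] (G₂.N₁ ⊗[R₁] G₃.N₁) :=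
    (TensorProduct.assoc R₁ G₁.N₁ G₂.N₁ G₃.N₁).toLinearMap
  let f₀₁ : (G₁.N₀₁ ⊗[R₀₁] G₂.N₀₁) ⊗[R₀₁] G₃.N₀₁ →ₗ[R₀₁]
      G₁.N₀₁ ⊗[R₀₁] (G₂.N₀₁ ⊗[R₀₁] G₃.N₀₁) :=
    (TensorProduct.assoc R₀₁ G₁.N₀₁ G₂.N₀₁ G₃.N₀₁).toLinearMap
  refine isIso_of_bijective
    (GDHom.ofTensor (G := tensorGD G₁ G₂) (G' := G₃) (H := tensorGD G₁ (tensorGD G₂ G₃))
      f₀ f₁ f₀₁ ?_ ?_)
    (TensorProduct.assoc R₀ G₁.N₀ G₂.N₀ G₃.N₀).bijective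
    (TensorProduct.assoc R₁ G₁.N₁ G₂.N₁ G₃.N₁).bijective
  · intro n n'
    change f₀₁ (tensorRes (S := R₀₁) G₁.r₀ G₂.r₀ n ⊗ₜ[R₀₁] G₃.r₀ n') =
      tensorRes (S := R₀₁) G₁.r₀ (tensorRes (S := R₀₁) G₂.r₀ G₃.r₀) (f₀ (n ⊗ₜ[R₀] n'))
    induction n using TensorProduct.induction_on with
    | zero => simp
    | tmul a b => simp [f₀, f₀₁]
    | add x y hx hy =>
      simp only [map_add, TensorProduct.add_tmul, hx, hy]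
  · intro n n'
    change f₀₁ (tensorRes (S := R₀₁) G₁.r₁ G₂.r₁ n ⊗ₜ[R₀₁] G₃.r₁ n') =
      tensorRes (S := R₀₁) G₁.r₁ (tensorRes (S := R₀₁) G₂.r₁ G₃.r₁) (f₁ (n ⊗ₜ[R₁] n'))
    induction n using TensorProduct.induction_on with
    | zero => simp
    | tmul a b => simp [f₁, f₀₁]
    | add x y hx hy =>
      simp only [map_add, TensorProduct.add_tmul, hx, hy]

end

end Fermat.Agent.S27.H323
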