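import Fermat.Agent.S27.Spec
import Fermat.Agent.S27.H323.TensorCore
import Fermat.Agent.S25.H325.GDCBC
import Fermat.Agent.S25.H265.GDCIso

/-!
# Row S27, leaf TENSOR + block G-ALG (helper323)

* `tensorExists : Stmt.TensorExists` — the leaf, in EXACTLY the shape of `S27/Spec.lean`.
* `isTensor_iff_h323 : IsTensor G G' H ↔ (S25.H325.tensorGD G G').IsIso H` — the key lemma: the
  frozen `IsTensor` is the Picard calculus of `S25.H325` up to `IsIso`.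
* G-ALG (pure algebra wanted by GRP, blueprint `coord/S27.md` §GRP): `IsTensor` is invariant
  under `IsIso` in each argument (`isTensor_congr_h323`), the tensor is unique up to `IsIso`
  (`isTensor_unique_h323`), commutative (`isTensor_comm_h323`), associative
  (`isTensor_assoc_h323`), has the unit datum as unit (`isTensor_unit_left_h323`,
  `isTensor_unit_right_h323`), has inverses (`exists_isTensor_unit_left_h323`,
  `exists_isTensor_unit_right_h323`, the dual datum), and commutes with base change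
  (`isTensor_isBC_h323`, `isTensor_curveGD_isBC_h323`, `isTensor_exists_isBC_h323`).
-/

set_option autoImplicit false

universe u

open TensorProduct

namespace Fermat.Agent.S27.H323

open Fermat.Agent.S25 Fermat.Agent.S25.H325 Fermat.Agent.S27

noncomputable section

section Basic

variable {A R₀ R₁ R₀₁ : Type u} [CommRing A] [CommRing R₀] [CommRing R₁]
    [CommRing R₀₁] [Algebra A R₀] [Algebra A R₁] [Algebra A R₀₁] [Algebra R₀ R₀₁]
    [Algebra R₁ R₀₁] [IsScalarTower A R₀ R₀₁] [IsScalarTower A R₁ R₀₁]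

/-- **Key lemma**: `H` is a tensor product of `G` and `G'` (frozen `IsTensor`) iff `H` is
isomorphic to `S25.H325.tensorGD G G'`. -/
theorem isTensor_iff_h323 {G G' H : GlueDatum A R₀ R₁ R₀₁} :
    IsTensor G G' H ↔ (tensorGD G G').IsIso H := by
  constructor
  · rintro ⟨T⟩
    exact isIso_tensorGD_of_bilin_h323 T.β₀ T.β₁ T.β₀₁ T.comm₀ T.comm₁ T.bijective₀
      T.bijective₁
  · intro h
    obtain ⟨β₀, β₁, β₀₁, c₀, c₁, b₀, b₁, b₀₁⟩ := exists_bilin_of_isIso_h323 h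
    exact ⟨⟨β₀, β₁, β₀₁, c₀, c₁, b₀, b₁, b₀₁⟩⟩

/-- `S25.H325.tensorGD G G'` is a tensor product of `G` and `G'`. -/
theorem isTensor_tensorGD_h323 (G G' : GlueDatum A R₀ R₁ R₀₁) :
    IsTensor G G' (tensorGD G G') :=
  isTensor_iff_h323.2 (H325.isIso_refl _)

/-- Constructor of `IsTensor` without the (redundant) bijectivity on the overlap. -/
theorem isTensor_of_bilin_h323 {G G' H : GlueDatum A R₀ R₁ R₀₁}
    (β₀ : G.N₀ →ₗ[R₀] G'.N₀ →ₗ[R₀] H.N₀) (β₁ : G.N₁ →ₗ[R₁] G'.N₁ →ₗ[R₁] H.N₁)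
    (β₀₁ : G.N₀₁ →ₗ[R₀₁] G'.N₀₁ →ₗ[R₀₁] H.N₀₁)
    (c₀ : ∀ s s', β₀₁ (G.r₀ s) (G'.r₀ s') = H.r₀ (β₀ s s'))
    (c₁ : ∀ s s', β₀₁ (G.r₁ s) (G'.r₁ s') = H.r₁ (β₁ s s'))
    (b₀ : Function.Bijective (TensorProduct.lift β₀))
    (b₁ : Function.Bijective (TensorProduct.lift β₁)) : IsTensor G G' H :=
  ⟨⟨β₀, β₁, β₀₁, c₀, c₁, b₀, b₁, bijective_lift_overlap_h323 β₀ β₁ β₀₁ c₀ c₁ b₀⟩⟩

/-- `IsTensor` is invariant under `IsIso` in each of its three arguments. -/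
theorem isTensor_congr_h323 {G₁ G₂ G₁' G₂' H₁ H₂ : GlueDatum A R₀ R₁ R₀₁}
    (h : IsTensor G₁ G₁' H₁) (e : G₁.IsIso G₂) (e' : G₁'.IsIso G₂') (eH : H₁.IsIso H₂) :
    IsTensor G₂ G₂' H₂ :=
  isTensor_iff_h323.2
    (H325.isIso_trans (H325.isIso_symm (tensorGD_isIso_congr e e'))
      (H325.isIso_trans (isTensor_iff_h323.1 h) eH))

/-- Two tensor products of the same pair are isomorphic. -/
theorem isTensor_unique_h323 {G G' H₁ H₂ : GlueDatum A R₀ R₁ R₀₁}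
    (h₁ : IsTensor G G' H₁) (h₂ : IsTensor G G' H₂) : H₁.IsIso H₂ :=
  H325.isIso_trans (H325.isIso_symm (isTensor_iff_h323.1 h₁)) (isTensor_iff_h323.1 h₂)

/-- Tensor products of isomorphic pairs are isomorphic. -/
theorem isTensor_isIso_of_isIso_h323 {G₁ G₂ G₁' G₂' H₁ H₂ : GlueDatum A R₀ R₁ R₀₁}
    (h₁ : IsTensor G₁ G₁' H₁) (h₂ : IsTensor G₂ G₂' H₂) (e : G₁.IsIso G₂)
    (e' : G₁'.IsIso G₂') : H₁.IsIso H₂ :=
  isTensor_unique_h323 (isTensor_congr_h323 h₁ e e' (H325.isIso_refl _)) h₂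

/-- Commutativity. -/
theorem isTensor_comm_h323 {G G' H : GlueDatum A R₀ R₁ R₀₁} (h : IsTensor G G' H) :
    IsTensor G' G H :=
  isTensor_iff_h323.2 (H325.isIso_trans (tensorGD_comm_isIso G' G) (isTensor_iff_h323.1 h))

/-- The unit datum is a left unit. -/
theorem isTensor_unit_left_h323 (G : GlueDatum A R₀ R₁ R₀₁) :
    IsTensor (GlueDatum.unit A R₀ R₁ R₀₁) G G :=
  isTensor_iff_h323.2 (tensorGD_unit_left_isIso G)

/-- The unit datum is a right unit. -/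
theorem isTensor_unit_right_h323 (G : GlueDatum A R₀ R₁ R₀₁) :
    IsTensor G (GlueDatum.unit A R₀ R₁ R₀₁) G :=
  isTensor_iff_h323.2 (tensorGD_unit_right_isIso G)

/-- A tensor product with the unit datum is isomorphic to the other factor. -/
theorem isTensor_isIso_of_unit_left_h323 {G H : GlueDatum A R₀ R₁ R₀₁}
    (h : IsTensor (GlueDatum.unit A R₀ R₁ R₀₁) G H) : G.IsIso H :=
  isTensor_unique_h323 (isTensor_unit_left_h323 G) h

/-- A tensor product with the unit datum is isomorphic to the other factor. -/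
theorem isTensor_isIso_of_unit_right_h323 {G H : GlueDatum A R₀ R₁ R₀₁}
    (h : IsTensor G (GlueDatum.unit A R₀ R₁ R₀₁) H) : G.IsIso H :=
  isTensor_unique_h323 (isTensor_unit_right_h323 G) h

/-- The dual datum is a left inverse. -/
theorem isTensor_dual_left_h323 (G : GlueDatum A R₀ R₁ R₀₁) :
    IsTensor (dualGD G) G (GlueDatum.unit A R₀ R₁ R₀₁) :=
  isTensor_iff_h323.2 (tensorGD_dual_isIso_unit G)

/-- The dual datum is a right inverse. -/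
theorem isTensor_dual_right_h323 (G : GlueDatum A R₀ R₁ R₀₁) :
    IsTensor G (dualGD G) (GlueDatum.unit A R₀ R₁ R₀₁) :=
  isTensor_iff_h323.2 (tensorGD_dual_right_isIso_unit G)

/-- Inverses exist (on the left). -/
theorem exists_isTensor_unit_left_h323 (G : GlueDatum A R₀ R₁ R₀₁) :
    ∃ G' : GlueDatum A R₀ R₁ R₀₁, IsTensor G' G (GlueDatum.unit A R₀ R₁ R₀₁) :=
  ⟨dualGD G, isTensor_dual_left_h323 G⟩

/-- Inverses exist (on the right). -/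
theorem exists_isTensor_unit_right_h323 (G : GlueDatum A R₀ R₁ R₀₁) :
    ∃ G' : GlueDatum A R₀ R₁ R₀₁, IsTensor G G' (GlueDatum.unit A R₀ R₁ R₀₁) :=
  ⟨dualGD G, isTensor_dual_right_h323 G⟩

/-- Inverses are unique up to isomorphism. -/
theorem isTensor_inverse_unique_h323 {G G₁ G₂ : GlueDatum A R₀ R₁ R₀₁}
    (h₁ : IsTensor G G₁ (GlueDatum.unit A R₀ R₁ R₀₁))
    (h₂ : IsTensor G G₂ (GlueDatum.unit A R₀ R₁ R₀₁)) : G₁.IsIso G₂ := by
  -- `G₁ ≅ (G₂ ⊗ G) ⊗ G₁ ≅ G₂ ⊗ (G ⊗ G₁) ≅ G₂`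
  have a : (tensorGD (tensorGD G₂ G) G₁).IsIso G₁ :=
    H325.isIso_trans
      (tensorGD_isIso_congr (isTensor_iff_h323.1 (isTensor_comm_h323 h₂)) (H325.isIso_refl G₁))
      (tensorGD_unit_left_isIso G₁)
  have b : (tensorGD G₂ (tensorGD G G₁)).IsIso G₂ :=
    H325.isIso_trans
      (tensorGD_isIso_congr (H325.isIso_refl G₂) (isTensor_iff_h323.1 h₁))
      (tensorGD_unit_right_isIso G₂)
  exact H325.isIso_trans (H325.isIso_symm a)
    (H325.isIso_trans (tensorGD_assoc_isIso_h323 G₂ G G₁) b)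

/-- Associativity: `(G₁ ⊗ G₂) ⊗ G₃ ≅ G₁ ⊗ (G₂ ⊗ G₃)`. -/
theorem isTensor_assoc_h323 {G₁ G₂ G₃ H₁₂ H₂₃ K K' : GlueDatum A R₀ R₁ R₀₁}
    (h₁₂ : IsTensor G₁ G₂ H₁₂) (hK : IsTensor H₁₂ G₃ K) (h₂₃ : IsTensor G₂ G₃ H₂₃)
    (hK' : IsTensor G₁ H₂₃ K') : K.IsIso K' := by
  have a : (tensorGD (tensorGD G₁ G₂) G₃).IsIso K :=
    H325.isIso_trans
      (tensorGD_isIso_congr (isTensor_iff_h323.1 h₁₂) (H325.isIso_refl G₃))
      (isTensor_iff_h323.1 hK)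
  have b : (tensorGD G₁ (tensorGD G₂ G₃)).IsIso K' :=
    H325.isIso_trans
      (tensorGD_isIso_congr (H325.isIso_refl G₁) (isTensor_iff_h323.1 h₂₃))
      (isTensor_iff_h323.1 hK')
  exact H325.isIso_trans (H325.isIso_symm a)
    (H325.isIso_trans (tensorGD_assoc_isIso_h323 G₁ G₂ G₃) b)

/-- Associativity, as a statement about `IsTensor`: a tensor product of `G₁ ⊗ G₂` and `G₃` is
a tensor product of `G₁` and `G₂ ⊗ G₃`. -/
theorem isTensor_assoc_isTensor_h323 {G₁ G₂ G₃ H₁₂ H₂₃ K : GlueDatum A R₀ R₁ R₀₁}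
    (h₁₂ : IsTensor G₁ G₂ H₁₂) (hK : IsTensor H₁₂ G₃ K) (h₂₃ : IsTensor G₂ G₃ H₂₃) :
    IsTensor G₁ H₂₃ K :=
  isTensor_congr_h323 (isTensor_tensorGD_h323 G₁ H₂₃) (H325.isIso_refl _) (H325.isIso_refl _)
    (H325.isIso_symm (isTensor_assoc_h323 h₁₂ hK h₂₃ (isTensor_tensorGD_h323 G₁ H₂₃)))

/-- Cancellation: `G ⊗ G₁ ≅ G ⊗ G₂` implies `G₁ ≅ G₂`. -/
theorem isTensor_cancel_left_h323 {G G₁ G₂ H : GlueDatum A R₀ R₁ R₀₁}
    (h₁ : IsTensor G G₁ H) (h₂ : IsTensor G G₂ H) : G₁.IsIso G₂ := by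
  -- `Gᵢ ≅ (G^∨ ⊗ G) ⊗ Gᵢ ≅ G^∨ ⊗ (G ⊗ Gᵢ) ≅ G^∨ ⊗ H`
  have key : ∀ {G' : GlueDatum A R₀ R₁ R₀₁}, IsTensor G G' H →
      G'.IsIso (tensorGD (dualGD G) H) := fun {G'} h =>
    H325.isIso_trans
      (H325.isIso_symm
        (H325.isIso_trans
          (tensorGD_isIso_congr (tensorGD_dual_isIso_unit G) (H325.isIso_refl G'))
          (tensorGD_unit_left_isIso G')))
      (H325.isIso_trans (tensorGD_assoc_isIso_h323 (dualGD G) G G')
        (tensorGD_isIso_congr (H325.isIso_refl _) (isTensor_iff_h323.1 h)))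
  exact H325.isIso_trans (key h₁) (H325.isIso_symm (key h₂))

end Basic

/-- **TENSOR** (leaf of row S27): tensor products of gluing data exist. -/
theorem tensorExists : Stmt.TensorExists.{u} := by
  intro A R₀ R₁ R₀₁ _ _ _ _ _ _ _ _ _ _ _ G G'
  exact ⟨tensorGD G G', isTensor_tensorGD_h323 G G'⟩

section BaseChange

variable {A R₀ R₁ R₀₁ : Type u} [CommRing A] [CommRing R₀] [CommRing R₁]
    [CommRing R₀₁] [Algebra A R₀] [Algebra A R₁] [Algebra A R₀₁] [Algebra R₀ R₀₁]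
    [Algebra R₁ R₀₁] [IsScalarTower A R₀ R₀₁] [IsScalarTower A R₁ R₀₁]
    {A' R₀' R₁' R₀₁' : Type u} [CommRing A'] [CommRing R₀'] [CommRing R₁']
    [CommRing R₀₁'] [Algebra A' R₀'] [Algebra A' R₁'] [Algebra A' R₀₁'] [Algebra R₀' R₀₁']
    [Algebra R₁' R₀₁'] [IsScalarTower A' R₀' R₀₁'] [IsScalarTower A' R₁' R₀₁']
    {ρ₀ : R₀ →+* R₀'} {ρ₁ : R₁ →+* R₁'} {ρ₀₁ : R₀₁ →+* R₀₁'}

/-- **Tensor products commute with base change**: if `H` is a tensor product of `G₁`, `G₂`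
and `G₁'`, `G₂'`, `H'` are base changes of `G₁`, `G₂`, `H`, then `H'` is a tensor product of
`G₁'`, `G₂'`. -/
theorem isTensor_isBC_h323 {G₁ G₂ H : GlueDatum A R₀ R₁ R₀₁}
    {G₁' G₂' H' : GlueDatum A' R₀' R₁' R₀₁'} (h : IsTensor G₁ G₂ H)
    (h₁ : GlueDatum.IsBC ρ₀ ρ₁ ρ₀₁ G₁ G₁') (h₂ : GlueDatum.IsBC ρ₀ ρ₁ ρ₀₁ G₂ G₂')
    (hH : GlueDatum.IsBC ρ₀ ρ₁ ρ₀₁ H H') : IsTensor G₁' G₂' H' :=
  isTensor_iff_h323.2
    (H265.isIso_of_isBC (H265.IsBC.of_isIso_left (isTensor_iff_h323.1 h) (isBC_tensorGD h₁ h₂))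
      hH)

/-- If `H` is a tensor product of `G₁`, `G₂`, and `H'` is a tensor product of base changes
`G₁'`, `G₂'` of `G₁`, `G₂`, then `H'` is a base change of `H`. -/
theorem isTensor_isBC_of_isTensor_h323 {G₁ G₂ H : GlueDatum A R₀ R₁ R₀₁}
    {G₁' G₂' H' : GlueDatum A' R₀' R₁' R₀₁'} (h : IsTensor G₁ G₂ H)
    (h₁ : GlueDatum.IsBC ρ₀ ρ₁ ρ₀₁ G₁ G₁') (h₂ : GlueDatum.IsBC ρ₀ ρ₁ ρ₀₁ G₂ G₂')
    (h' : IsTensor G₁' G₂' H') : GlueDatum.IsBC ρ₀ ρ₁ ρ₀₁ H H' :=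
  H265.IsBC.of_isIso_right
    (H265.IsBC.of_isIso_left (isTensor_iff_h323.1 h) (isBC_tensorGD h₁ h₂))
    (isTensor_iff_h323.1 h')

end BaseChange

section Curve

variable {k : Type u} [Field k] {B₀ B₁ B₀₁ : Type u} [CommRing B₀] [CommRing B₁] [CommRing B₀₁]
  [Algebra k B₀] [Algebra k B₁] [Algebra k B₀₁] [Algebra B₀ B₀₁] [Algebra B₁ B₀₁]
  [IsScalarTower k B₀ B₀₁] [IsScalarTower k B₁ B₀₁]
  {A A' : Type u} [CommRing A] [Algebra k A] [CommRing A'] [Algebra k A']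

/-- Tensor products of curve gluing data commute with base change `φ : A → A'`. -/
theorem isTensor_curveGD_isBC_h323 (φ : A →ₐ[k] A') {G₁ G₂ H : CurveGD k B₀ B₁ B₀₁ A}
    {G₁' G₂' H' : CurveGD k B₀ B₁ B₀₁ A'} (h : IsTensor G₁ G₂ H)
    (h₁ : CurveGD.IsBC φ G₁ G₁') (h₂ : CurveGD.IsBC φ G₂ G₂') (hH : CurveGD.IsBC φ H H') :
    IsTensor G₁' G₂' H' :=
  isTensor_isBC_h323 h h₁ h₂ hH

/-- A tensor product of base changes is a base change of the tensor product. -/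
theorem isTensor_curveGD_isBC_of_isTensor_h323 (φ : A →ₐ[k] A')
    {G₁ G₂ H : CurveGD k B₀ B₁ B₀₁ A} {G₁' G₂' H' : CurveGD k B₀ B₁ B₀₁ A'}
    (h : IsTensor G₁ G₂ H) (h₁ : CurveGD.IsBC φ G₁ G₁') (h₂ : CurveGD.IsBC φ G₂ G₂')
    (h' : IsTensor G₁' G₂' H') : CurveGD.IsBC φ H H' :=
  isTensor_isBC_of_isTensor_h323 h h₁ h₂ h'

end Curve

end

end Fermat.Agent.S27.H323
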